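import Fermat.Agent.S43.Exact.Lift

/-!
# S43 / EXACT, part 2: `2 × 2` matrices over `A` acting on `L²`, and (GI2) in the tower

`matAct X : L² → L²` for `X ∈ M₂(A)` and an `A`-module `L`.
`gi2_tower`: `L` free over the local ring `Λ` (`= k[Δ_Q]`), `N, F ∈ M₂(A)`, `N² = 0`, `N F = 0`,
`N` exact on `(L/𝔪_Λ L)²`  ⟹  `F L² ⊆ N L²`, hence every entry `f` of `F` satisfies
`f L ⊆ (entries of N) L`.
Pure Mathlib.
-/

set_option autoImplicit false

namespace Fermat.Agent.S43.Exact

section Act

variable {A : Type*} [CommRing A] {L : Type*} [AddCommGroup L] [Module A L]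

/-- action of `2 × 2` matrices on `L²`. -/
def matAct (X : Matrix (Fin 2) (Fin 2) A) : (Fin 2 → L) →ₗ[A] (Fin 2 → L) where
  toFun v i := ∑ j, X i j • v j
  map_add' v w := by
    funext i
    simp [smul_add, Finset.sum_add_distrib]
  map_smul' a v := by
    funext i
    simp [smul_comm a]

theorem matAct_apply (X : Matrix (Fin 2) (Fin 2) A) (v : Fin 2 → L) (i : Fin 2) :
    matAct X v i = X i 0 • v 0 + X i 1 • v 1 := by
  simp [matAct, Fin.sum_univ_two]

theorem matAct_mul (X Y : Matrix (Fin 2) (Fin 2) A) (v : Fin 2 → L) :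
    matAct (X * Y) v = matAct X (matAct Y v) := by
  funext i
  simp only [matAct_apply, Matrix.mul_apply, Fin.sum_univ_two, smul_add, add_smul, mul_smul]
  abel

theorem matAct_one (v : Fin 2 → L) : matAct (1 : Matrix (Fin 2) (Fin 2) A) v = v := by
  funext i
  fin_cases i <;> simp [matAct_apply]

theorem matAct_zero (v : Fin 2 → L) : matAct (0 : Matrix (Fin 2) (Fin 2) A) v = 0 := by
  funext i
  simp [matAct_apply]

theorem matAct_add (X Y : Matrix (Fin 2) (Fin 2) A) (v : Fin 2 → L) :
    matAct (X + Y) v = matAct X v + matAct Y v := by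
  funext i
  simp only [matAct_apply, Matrix.add_apply, add_smul, Pi.add_apply]
  abel

theorem matAct_sub (X Y : Matrix (Fin 2) (Fin 2) A) (v : Fin 2 → L) :
    matAct (X - Y) v = matAct X v - matAct Y v := by
  funext i
  simp only [matAct_apply, Matrix.sub_apply, sub_smul, Pi.sub_apply]
  abel

theorem matAct_smul (a : A) (X : Matrix (Fin 2) (Fin 2) A) (v : Fin 2 → L) :
    matAct (a • X) v = a • matAct X v := by
  funext i
  simp only [matAct_apply, Matrix.smul_apply, smul_eq_mul, mul_smul, Pi.smul_apply, smul_add]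

/-- a matrix acting by zero on `L²`, `L` faithful, is zero. -/
theorem eq_zero_of_matAct (hL : ∀ a : A, (∀ l : L, a • l = 0) → a = 0)
    (X : Matrix (Fin 2) (Fin 2) A) (h : ∀ v : Fin 2 → L, matAct X v = 0) : X = 0 := by
  ext i j
  apply hL
  intro l
  have := congrFun (h (Pi.single j l)) i
  rw [matAct_apply] at this
  fin_cases j
  · simpa using this
  · simpa using this

theorem eq_of_matAct (hL : ∀ a : A, (∀ l : L, a • l = 0) → a = 0)
    (X Y : Matrix (Fin 2) (Fin 2) A) (h : ∀ v : Fin 2 → L, matAct X v = matAct Y v) : X = Y := by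
  rw [← sub_eq_zero]
  apply eq_zero_of_matAct hL
  intro v
  rw [matAct_sub, h, sub_self]

theorem matAct_mem (I : Ideal A) (X : Matrix (Fin 2) (Fin 2) A) (hX : ∀ i j, X i j ∈ I)
    (v : Fin 2 → L) (i : Fin 2) : matAct X v i ∈ I • (⊤ : Submodule A L) := by
  rw [matAct_apply]
  exact add_mem (Submodule.smul_mem_smul (hX _ _) trivial)
    (Submodule.smul_mem_smul (hX _ _) trivial)

/-- `matAct` commutes with `A`-linear maps applied componentwise. -/
theorem matAct_map {L' : Type*} [AddCommGroup L'] [Module A L'] (f : L →ₗ[A] L')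
    (X : Matrix (Fin 2) (Fin 2) A) (v : Fin 2 → L) :
    matAct X (fun i => f (v i)) = fun i => f (matAct X v i) := by
  funext i
  simp [matAct_apply]

/-- exactness of `matAct N`. -/
def MatExact (L : Type*) [AddCommGroup L] [Module A L] (N : Matrix (Fin 2) (Fin 2) A) : Prop :=
  ∀ v : Fin 2 → L, matAct N v = 0 → ∃ w : Fin 2 → L, v = matAct N w

/-- exactness passes to powers. -/
theorem MatExact.pi {N : Matrix (Fin 2) (Fin 2) A} (h : MatExact L N) (ι : Type*) :
    MatExact (ι → L) N := by
  intro v hv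
  have h1 : ∀ k : ι, ∃ w : Fin 2 → L, (fun i => v i k) = matAct N w := by
    intro k
    apply h
    funext i
    have := congrFun (congrFun hv i) k
    simpa [matAct_apply] using this
  choose w hw using h1
  refine ⟨fun i k => w k i, ?_⟩
  funext i k
  have := congrFun (hw k) i
  simpa [matAct_apply] using this

/-- exactness is transported by linear equivalences. -/
theorem MatExact.of_equiv {L' : Type*} [AddCommGroup L'] [Module A L'] (e : L ≃ₗ[A] L')
    {N : Matrix (Fin 2) (Fin 2) A} (h : MatExact L N) : MatExact L' N := by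
  intro v hv
  obtain ⟨w, hw⟩ := h (fun i => e.symm (v i)) (by
    have := matAct_map e.symm.toLinearMap N v
    rw [hv] at this
    rw [show (fun i => e.symm (v i)) = fun i => e.symm.toLinearMap (v i) from rfl, this]
    funext i
    simp)
  refine ⟨fun i => e (w i), ?_⟩
  have h2 := matAct_map e.toLinearMap N w
  rw [← hw] at h2
  simpa using h2.symm

/-- exactness is invariant under conjugation. -/
theorem MatExact.conj {N P P' : Matrix (Fin 2) (Fin 2) A} (hP : P * P' = 1) (hP' : P' * P = 1)
    (h : MatExact L N) : MatExact L (P * N * P') := by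
  intro v hv
  obtain ⟨w, hw⟩ := h (matAct P' v) (by
    have := congrArg (matAct P') hv
    rw [← matAct_mul, ← mul_assoc, ← mul_assoc, hP', one_mul, matAct_mul, map_zero] at this
    exact this)
  refine ⟨matAct P w, ?_⟩
  rw [← matAct_mul, mul_assoc, hP', mul_one, matAct_mul, ← hw, ← matAct_mul, hP, matAct_one]

end Act

section Tower

variable {Λ : Type*} [CommRing Λ] [IsLocalRing Λ] {A : Type*} [CommRing A] [Algebra Λ A]
variable {L : Type*} [AddCommGroup L] [Module A L] [Module Λ L] [IsScalarTower Λ A L]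

omit [IsLocalRing Λ] in
theorem mem_smul_top_pi (I : Ideal Λ) (v : Fin 2 → L) :
    v ∈ I • (⊤ : Submodule Λ (Fin 2 → L)) ↔ ∀ i, v i ∈ I • (⊤ : Submodule Λ L) := by
  constructor
  · intro hv i
    have := Submodule.mem_map_of_mem (f := (LinearMap.proj i : (Fin 2 → L) →ₗ[Λ] L)) hv
    rw [Submodule.map_smul''] at this
    exact Submodule.smul_mono le_rfl le_top this
  · intro hv
    have : v = ∑ i, (LinearMap.single Λ (fun _ : Fin 2 => L) i) (v i) := by
      funext j
      simp [Finset.sum_apply, Pi.single_apply]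
    rw [this]
    refine Submodule.sum_mem _ fun i _ => ?_
    have h1 := Submodule.mem_map_of_mem (f := LinearMap.single Λ (fun _ : Fin 2 => L) i) (hv i)
    rw [Submodule.map_smul''] at h1
    exact Submodule.smul_mono le_rfl le_top h1

/-- **(GI2) in the tower.** -/
theorem gi2_tower [Module.Free Λ L] [Module.Finite Λ L]
    (N F : Matrix (Fin 2) (Fin 2) A) (hN : N * N = 0) (hNF : N * F = 0)
    (hex : ∀ v : Fin 2 → L,
      (∀ i, matAct N v i ∈ (IsLocalRing.maximalIdeal Λ) • (⊤ : Submodule Λ L)) →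
      ∃ w : Fin 2 → L, ∀ i, v i - matAct N w i ∈ (IsLocalRing.maximalIdeal Λ) • (⊤ : Submodule Λ L))
    (v : Fin 2 → L) : ∃ w : Fin 2 → L, matAct F v = matAct N w := by
  have := exact_of_exact_mod (Λ := Λ) (M := Fin 2 → L) ((matAct N).restrictScalars Λ)
    (fun x => by
      change matAct N (matAct N x) = 0
      rw [← matAct_mul, hN, matAct_zero])
    (fun x hx => by
      rw [mem_smul_top_pi] at hx
      obtain ⟨w, hw⟩ := hex x hx
      exact ⟨w, (mem_smul_top_pi _ _).mpr hw⟩)
    (matAct F v) (by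
      change matAct N (matAct F v) = 0
      rw [← matAct_mul, hNF, matAct_zero])
  exact this

omit [Algebra Λ A] [IsScalarTower Λ A L] in
/-- the hypothesis `hex` of `gi2_tower` from exactness on a model `Lb` of `L / 𝔪_Λ L`. -/
theorem hex_of_quotient {Lb : Type*} [AddCommGroup Lb] [Module A Lb] (pr : L →ₗ[A] Lb)
    (hs : Function.Surjective pr)
    (hk : ∀ l, pr l = 0 ↔ l ∈ (IsLocalRing.maximalIdeal Λ) • (⊤ : Submodule Λ L))
    (N : Matrix (Fin 2) (Fin 2) A) (h : MatExact Lb N) :
    ∀ v : Fin 2 → L,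
      (∀ i, matAct N v i ∈ (IsLocalRing.maximalIdeal Λ) • (⊤ : Submodule Λ L)) →
      ∃ w : Fin 2 → L,
        ∀ i, v i - matAct N w i ∈ (IsLocalRing.maximalIdeal Λ) • (⊤ : Submodule Λ L) := by
  intro v hv
  obtain ⟨wb, hwb⟩ := h (fun i => pr (v i)) (by
    rw [matAct_map pr N v]
    funext i
    exact (hk _).mpr (hv i))
  choose w hw using fun i => hs (wb i)
  refine ⟨w, fun i => ?_⟩
  rw [← hk, map_sub, sub_eq_zero]
  have h1 := congrFun hwb i
  have h2 := congrFun (matAct_map pr N w) i
  rw [← h2, h1]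
  have : wb = fun i => pr (w i) := by
    funext j
    exact (hw j).symm
  rw [this]

/-- every entry of `F` maps `L` into `(entries of N) L`. -/
theorem entry_mem_of_gi2 (N F : Matrix (Fin 2) (Fin 2) A) (I : Ideal A) (hI : ∀ i j, N i j ∈ I)
    (h : ∀ v : Fin 2 → L, ∃ w : Fin 2 → L, matAct F v = matAct N w) (i j : Fin 2) (l : L) :
    F i j • l ∈ I • (⊤ : Submodule A L) := by
  obtain ⟨w, hw⟩ := h (Pi.single j l)
  have h1 := congrFun hw i
  have h2 : matAct F (Pi.single j l) i = F i j • l := by
    rw [matAct_apply]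
    fin_cases j <;> simp
  rw [← h2, h1]
  exact matAct_mem I N hI w i

end Tower

end Fermat.Agent.S43.Exact
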