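import Fermat.Agent.S43.Exact.Mat
import Fermat.Agent.GAL.RepAlg

/-!
# S43 / EXACT, part 3: `W = L²` (generalised matrix algebra, residually irreducible case)

`A` a commutative ring with `2` invertible, `W` a faithful `A`-module with an `A`-linear action `r`
of a group `G`, `ε : G →* Aˣ`, `c` an involution with `ε c = -1`, and the scalar property
`r g + ε g • r g⁻¹ = t g`.  If two explicit elements (`= b(g₀) c(h₀)` computed from `t`) are units,
then `W ≃ L²`, `L = e₊ W`, with `G` acting through `ρ : G →* M₂(A)`, `tr ρ = t`, `det ρ = ε`,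
`ρ c = diag(1,-1)`.
-/

set_option autoImplicit false

namespace Fermat.Agent.S43.Exact

open Fermat.Agent.GAL

variable {A : Type*} [CommRing A] {G : Type*} [Group G]

/-- upper left entry. -/
def aa (t : G → A) (c : G) (h : A) (g : G) : A := h * (t g + t (c * g))
/-- lower right entry. -/
def dd (t : G → A) (c : G) (h : A) (g : G) : A := h * (t g - t (c * g))
/-- `b(g) c(g')`. -/
def xx (t : G → A) (c : G) (h : A) (g g' : G) : A := aa t c h (g * g') - aa t c h g * aa t c h g'
/-- `c(g) b(g')`. -/
def xx' (t : G → A) (c : G) (h : A) (g g' : G) : A := dd t c h (g * g') - dd t c h g * dd t c h g'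

variable {W : Type*} [AddCommGroup W] [Module A W]

/-- hypotheses of the GMA theorem. -/
structure GHyp (r : G →* Module.End A W) (ε : G →* Aˣ) (c : G) (t : G → A) (h : A)
    (g0 h0 : G) (ui ui' : A) : Prop where
  hc : c * c = 1
  hεc : ε c = -1
  ht : ∀ g, r g + (ε g : A) • r g⁻¹ = t g • (1 : Module.End A W)
  h2 : 2 * h = 1
  hu : xx t c h g0 h0 * ui = 1
  hu' : xx' t c h h0 g0 * ui' = 1

/-- `e₊`. -/
def ep (r : G →* Module.End A W) (c : G) (h : A) : Module.End A W := h • (1 + r c)
/-- `e₋`. -/
def em (r : G →* Module.End A W) (c : G) (h : A) : Module.End A W := h • (1 - r c)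

variable {r : G →* Module.End A W} {ε : G →* Aˣ} {c : G} {t : G → A} {h : A}
  {g0 h0 : G} {ui ui' : A}

namespace GHyp

variable (H : GHyp r ε c t h g0 h0 ui ui')
include H

theorem CC : r c * r c = 1 := by rw [← map_mul, H.hc, map_one]

theorem ep_add_em : ep r c h + em r c h = 1 := by
  simp only [ep, em]
  linear_combination (norm := module) H.h2 • (1 : Module.End A W)

theorem ep_ep : ep r c h * ep r c h = ep r c h := by
  simp only [ep, smul_mul_smul_comm, add_mul, mul_add, one_mul, mul_one, H.CC]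
  linear_combination (norm := module) (h * H.h2) • ((1 : Module.End A W) + r c)

theorem em_em : em r c h * em r c h = em r c h := by
  simp only [em, smul_mul_smul_comm, sub_mul, mul_sub, one_mul, mul_one, H.CC]
  linear_combination (norm := module) (h * H.h2) • ((1 : Module.End A W) - r c)

theorem ep_em : ep r c h * em r c h = 0 := by
  simp only [ep, em, smul_mul_smul_comm, add_mul, mul_sub, one_mul, mul_one, H.CC]
  module

theorem em_ep : em r c h * ep r c h = 0 := by
  simp only [ep, em, smul_mul_smul_comm, sub_mul, mul_add, one_mul, mul_one, H.CC]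
  module

theorem ep_c : ep r c h * r c = ep r c h := by
  simp only [ep, smul_mul_assoc, add_mul, one_mul, H.CC]
  module

theorem em_c : em r c h * r c = - em r c h := by
  simp only [em, smul_mul_assoc, sub_mul, one_mul, H.CC]
  module

theorem ep_g_ep (g : G) : ep r c h * r g * ep r c h = aa t c h g • ep r c h := by
  have k := RepAlg.key (r := r) (ε := ε) H.hc H.hεc H.ht (s := 1) (by ring) g
  have e : ep r c h = h • (r c + (1 : A) • (1 : Module.End A W)) := by
    simp only [ep]; module
  rw [e, smul_mul_assoc, mul_smul_comm, smul_mul_assoc, k]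
  simp only [aa]
  module

theorem em_g_em (g : G) : em r c h * r g * em r c h = dd t c h g • em r c h := by
  have k := RepAlg.key (r := r) (ε := ε) H.hc H.hεc H.ht (s := -1) (by ring) g
  have e : em r c h = (-h) • (r c + (-1 : A) • (1 : Module.End A W)) := by
    simp only [em]; module
  rw [e, smul_mul_assoc, mul_smul_comm, smul_mul_assoc, k]
  simp only [dd]
  module

theorem em_eq : em r c h = 1 - ep r c h := by rw [← H.ep_add_em]; abel
theorem ep_eq : ep r c h = 1 - em r c h := by rw [← H.ep_add_em]; abel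

theorem ep_em_ep (g g' : G) :
    ep r c h * r g * em r c h * r g' * ep r c h = xx t c h g g' • ep r c h := by
  have h1 : ep r c h * r g * em r c h * r g' * ep r c h
      = ep r c h * r (g * g') * ep r c h
        - (ep r c h * r g * ep r c h) * (ep r c h * r g' * ep r c h) := by
    have e2 : (ep r c h * r g * ep r c h) * (ep r c h * r g' * ep r c h)
        = ep r c h * r g * (ep r c h * ep r c h) * r g' * ep r c h := by
      simp only [mul_assoc]
    rw [e2, H.ep_ep, H.em_eq, map_mul]
    simp only [mul_sub, sub_mul, mul_one, mul_assoc]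
  rw [h1, H.ep_g_ep, H.ep_g_ep, H.ep_g_ep, smul_mul_smul_comm, H.ep_ep, xx, sub_smul]

theorem em_ep_em (g g' : G) :
    em r c h * r g * ep r c h * r g' * em r c h = xx' t c h g g' • em r c h := by
  have h1 : em r c h * r g * ep r c h * r g' * em r c h
      = em r c h * r (g * g') * em r c h
        - (em r c h * r g * em r c h) * (em r c h * r g' * em r c h) := by
    have e2 : (em r c h * r g * em r c h) * (em r c h * r g' * em r c h)
        = em r c h * r g * (em r c h * em r c h) * r g' * em r c h := by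
      simp only [mul_assoc]
    rw [e2, H.em_em, H.ep_eq, map_mul]
    simp only [mul_sub, sub_mul, mul_one, mul_assoc]
  rw [h1, H.em_g_em, H.em_g_em, H.em_g_em, smul_mul_smul_comm, H.em_em, xx', sub_smul]

end GHyp

/-- `E₁₂`. -/
def E12 (r : G →* Module.End A W) (c : G) (h : A) (g0 : G) : Module.End A W :=
  ep r c h * r g0 * em r c h
/-- `E₂₁`. -/
def E21 (r : G →* Module.End A W) (c : G) (h : A) (h0 : G) (ui : A) : Module.End A W :=
  ui • (em r c h * r h0 * ep r c h)

namespace GHyp

variable (H : GHyp r ε c t h g0 h0 ui ui')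
include H

theorem E12_E21 : E12 r c h g0 * E21 r c h h0 ui = ep r c h := by
  have : E12 r c h g0 * E21 r c h h0 ui
      = ui • (ep r c h * r g0 * (em r c h * em r c h) * r h0 * ep r c h) := by
    simp only [E12, E21, mul_smul_comm, mul_assoc]
  rw [this, H.em_em, H.ep_em_ep, smul_smul, mul_comm, H.hu, one_smul]

theorem E21_E12' : E21 r c h h0 ui * E12 r c h g0 = (ui * xx' t c h h0 g0) • em r c h := by
  have : E21 r c h h0 ui * E12 r c h g0
      = ui • (em r c h * r h0 * (ep r c h * ep r c h) * r g0 * em r c h) := by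
    simp only [E12, E21, smul_mul_assoc, mul_assoc]
  rw [this, H.ep_ep, H.em_ep_em, smul_smul]

theorem ep_E12 : ep r c h * E12 r c h g0 = E12 r c h g0 := by
  simp only [E12, ← mul_assoc, H.ep_ep]

theorem E12_em : E12 r c h g0 * em r c h = E12 r c h g0 := by
  simp only [E12, mul_assoc, H.em_em]

theorem E12_ep : E12 r c h g0 * ep r c h = 0 := by
  simp only [E12, mul_assoc, H.em_ep, mul_zero]

theorem ep_E21 : ep r c h * E21 r c h h0 ui = 0 := by
  simp only [E21, mul_smul_comm, ← mul_assoc, H.ep_em, zero_mul, smul_zero]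

theorem E21_E12 : E21 r c h h0 ui * E12 r c h g0 = em r c h := by
  set y := ui * xx' t c h h0 g0 with hy
  have hF := H.E21_E12'
  rw [← hy] at hF
  -- `(y - 1) E12 = 0`
  have h1 : (y - 1) • E12 r c h g0 = 0 := by
    have e1 : E12 r c h g0 * (E21 r c h h0 ui * E12 r c h g0) = E12 r c h g0 := by
      rw [← mul_assoc, H.E12_E21, H.ep_E12]
    rw [hF, mul_smul_comm, H.E12_em] at e1
    rw [sub_smul, e1, one_smul, sub_self]
  have h2 : (y - 1) • (y • em r c h) = 0 := by
    rw [← hF, ← mul_smul_comm, h1, mul_zero]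
  -- `y` is a unit
  have hyu : y * (xx t c h g0 h0 * ui') = 1 := by
    rw [hy]
    linear_combination (xx' t c h h0 g0 * ui') * H.hu + H.hu'
  have h3 : (y - 1) • em r c h = 0 := by
    have := congrArg (fun z => (xx t c h g0 h0 * ui') • z) h2
    simp only [smul_zero, smul_smul] at this
    rw [show xx t c h g0 h0 * ui' * ((y - 1) * y) = (y - 1) * (y * (xx t c h g0 h0 * ui')) by ring,
      hyu, mul_one] at this
    exact this
  rw [hF]
  rw [sub_smul, one_smul, sub_eq_zero] at h3
  exact h3

theorem ep_g_em (g : G) :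
    ep r c h * r g * em r c h = (ui * xx t c h g h0) • E12 r c h g0 := by
  have e1 : ep r c h * r g * em r c h
      = ui • ((ep r c h * r g * em r c h * r h0 * ep r c h) * E12 r c h g0) := by
    calc ep r c h * r g * em r c h
        = ep r c h * r g * (em r c h * em r c h) := by rw [H.em_em]
      _ = ep r c h * r g * (em r c h * (E21 r c h h0 ui * E12 r c h g0)) := by rw [H.E21_E12]
      _ = ui • (ep r c h * r g * (em r c h * em r c h) * r h0 * ep r c h * E12 r c h g0) := by
          simp only [E21, smul_mul_assoc, mul_smul_comm, mul_assoc]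
      _ = _ := by rw [H.em_em]
  rw [e1, H.ep_em_ep, smul_mul_assoc, H.ep_E12, smul_smul]

theorem E12_g_ep (g : G) : E12 r c h g0 * r g * ep r c h = xx t c h g0 g • ep r c h := by
  simp only [E12]
  exact H.ep_em_ep g0 g

theorem E12_g_em (g : G) : E12 r c h g0 * r g * em r c h = dd t c h g • E12 r c h g0 := by
  have : E12 r c h g0 * r g * em r c h = ep r c h * r g0 * (em r c h * r g * em r c h) := by
    simp only [E12, mul_assoc]
  rw [this, H.em_g_em, mul_smul_comm, E12]

end GHyp

/-- the module `L = e₊ W`. -/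
def LL (r : G →* Module.End A W) (c : G) (h : A) : Submodule A W := LinearMap.range (ep r c h)

/-- the matrix of `g`. -/
def rhoMat (t : G → A) (c : G) (h : A) (g0 h0 : G) (ui : A) (g : G) : Matrix (Fin 2) (Fin 2) A :=
  !![aa t c h g, ui * xx t c h g h0; xx t c h g0 g, dd t c h g]

namespace GHyp

variable (H : GHyp r ε c t h g0 h0 ui ui')
include H

theorem ep_of_mem {l : W} (hl : l ∈ LL r c h) : ep r c h l = l := by
  obtain ⟨w, rfl⟩ := hl
  rw [← Module.End.mul_apply, H.ep_ep]

theorem E12_of_mem {l : W} (hl : l ∈ LL r c h) : E12 r c h g0 l = 0 := by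
  obtain ⟨w, rfl⟩ := hl
  rw [← Module.End.mul_apply, H.E12_ep]
  rfl

omit H in
theorem E12_mem (w : W) : E12 r c h g0 w ∈ LL r c h :=
  ⟨r g0 (em r c h w), by simp [E12, Module.End.mul_apply]⟩

/-- the isomorphism `W ≃ L²`. -/
noncomputable def Phi : W ≃ₗ[A] (Fin 2 → LL r c h) where
  toFun w := ![⟨ep r c h w, ⟨w, rfl⟩⟩, ⟨E12 r c h g0 w, E12_mem w⟩]
  map_add' w w' := by
    funext i
    fin_cases i <;> exact Subtype.ext (by simp)
  map_smul' a w := by
    funext i
    fin_cases i <;> exact Subtype.ext (by simp)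
  invFun v := (v 0 : W) + E21 r c h h0 ui (v 1 : W)
  left_inv w := by
    change ep r c h w + E21 r c h h0 ui (E12 r c h g0 w) = w
    rw [← Module.End.mul_apply, H.E21_E12, ← LinearMap.add_apply, H.ep_add_em]
    rfl
  right_inv v := by
    funext i
    fin_cases i
    · apply Subtype.ext
      change ep r c h ((v 0 : W) + E21 r c h h0 ui (v 1 : W)) = v 0
      rw [map_add, ← Module.End.mul_apply, H.ep_E21, H.ep_of_mem (v 0).2]
      simp
    · apply Subtype.ext
      change E12 r c h g0 ((v 0 : W) + E21 r c h h0 ui (v 1 : W)) = v 1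
      rw [map_add, ← Module.End.mul_apply, H.E12_E21, H.E12_of_mem (v 0).2, H.ep_of_mem (v 1).2]
      simp

theorem Phi_zero (w : W) : ((H.Phi w 0 : LL r c h) : W) = ep r c h w := rfl
theorem Phi_one (w : W) : ((H.Phi w 1 : LL r c h) : W) = E12 r c h g0 w := rfl

theorem split (w : W) : w = ep r c h w + em r c h w := by
  rw [← LinearMap.add_apply, H.ep_add_em]; rfl

theorem Phi_act (g : G) (w : W) : H.Phi (r g w) = matAct (rhoMat t c h g0 h0 ui g) (H.Phi w) := by
  funext i
  apply Subtype.ext
  rw [matAct_apply]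
  fin_cases i
  · change ep r c h (r g w) = _
    simp only [rhoMat, Submodule.coe_add, Submodule.coe_smul, H.Phi_zero, H.Phi_one]
    have e1 := LinearMap.congr_fun (H.ep_g_ep g) w
    have e2 := LinearMap.congr_fun (H.ep_g_em g) w
    simp only [Module.End.mul_apply, LinearMap.smul_apply] at e1 e2
    conv_lhs => rw [H.split w, map_add, map_add, e1, e2]
    simp
  · change E12 r c h g0 (r g w) = _
    simp only [rhoMat, Submodule.coe_add, Submodule.coe_smul, H.Phi_zero, H.Phi_one]
    have e1 := LinearMap.congr_fun (H.E12_g_ep g) w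
    have e2 := LinearMap.congr_fun (H.E12_g_em g) w
    simp only [Module.End.mul_apply, LinearMap.smul_apply] at e1 e2
    conv_lhs => rw [H.split w, map_add, map_add, e1, e2]
    simp

theorem faithful_LL (hW : ∀ a : A, (∀ w : W, a • w = 0) → a = 0) :
    ∀ a : A, (∀ l : LL r c h, a • l = 0) → a = 0 := by
  intro a ha
  apply hW
  intro w
  apply H.Phi.injective
  rw [map_smul, map_zero]
  funext i
  exact ha _

/-- the representation `ρ : G →* M₂(A)`. -/
noncomputable def rho (hW : ∀ a : A, (∀ w : W, a • w = 0) → a = 0) :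
    G →* Matrix (Fin 2) (Fin 2) A where
  toFun := rhoMat t c h g0 h0 ui
  map_one' := by
    apply eq_of_matAct (H.faithful_LL hW)
    intro v
    obtain ⟨w, rfl⟩ := H.Phi.surjective v
    rw [← H.Phi_act, map_one, matAct_one]
    rfl
  map_mul' g g' := by
    apply eq_of_matAct (H.faithful_LL hW)
    intro v
    obtain ⟨w, rfl⟩ := H.Phi.surjective v
    rw [← H.Phi_act, map_mul, matAct_mul, ← H.Phi_act, ← H.Phi_act]
    rfl

theorem rho_apply (hW : ∀ a : A, (∀ w : W, a • w = 0) → a = 0) (g : G) :
    H.rho hW g = rhoMat t c h g0 h0 ui g := rfl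

theorem Phi_rho (hW : ∀ a : A, (∀ w : W, a • w = 0) → a = 0) (g : G) (w : W) :
    H.Phi (r g w) = matAct (H.rho hW g) (H.Phi w) := H.Phi_act g w

theorem trace_rho (hW : ∀ a : A, (∀ w : W, a • w = 0) → a = 0) (g : G) :
    (H.rho hW g).trace = t g := by
  rw [rho_apply, Matrix.trace_fin_two]
  simp only [rhoMat, aa, dd, Matrix.of_apply, Matrix.cons_val', Matrix.cons_val_zero,
    Matrix.cons_val_one, Matrix.cons_val_fin_one]
  linear_combination (t g) * H.h2

theorem rho_scal (hW : ∀ a : A, (∀ w : W, a • w = 0) → a = 0) (g : G) :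
    H.rho hW g + (ε g : A) • H.rho hW g⁻¹ = t g • (1 : Matrix (Fin 2) (Fin 2) A) := by
  apply eq_of_matAct (H.faithful_LL hW)
  intro v
  obtain ⟨w, rfl⟩ := H.Phi.surjective v
  have e := LinearMap.congr_fun (H.ht g) w
  simp only [LinearMap.add_apply, LinearMap.smul_apply, Module.End.one_apply] at e
  rw [matAct_add, matAct_smul, matAct_smul, matAct_one, ← H.Phi_rho, ← H.Phi_rho,
    ← map_smul H.Phi, ← map_smul H.Phi, ← map_add, e]

theorem det_rho (hW : ∀ a : A, (∀ w : W, a • w = 0) → a = 0) (g : G) :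
    (H.rho hW g).det = ε g := by
  have h1 := H.rho_scal hW g
  have h2 : H.rho hW g⁻¹ * H.rho hW g = 1 := by rw [← map_mul, inv_mul_cancel, map_one]
  have h3 := congrArg (· * H.rho hW g) h1
  simp only [add_mul, smul_mul_assoc, h2, one_mul] at h3
  have h4 := H.trace_rho hW g
  generalize H.rho hW g = X at h3 h4
  have h5 := congrFun (congrFun h3 0) 0
  have h6 := congrFun (congrFun h3 1) 1
  rw [Matrix.trace_fin_two] at h4
  rw [Matrix.det_fin_two]
  simp only [Matrix.add_apply, Matrix.mul_apply, Fin.sum_univ_two, Matrix.smul_apply,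
    Matrix.one_apply_eq, smul_eq_mul, mul_one] at h5 h6
  rw [← h4] at h5
  linear_combination (-1 : A) * h5

theorem rho_c (hW : ∀ a : A, (∀ w : W, a • w = 0) → a = 0) :
    H.rho hW c = !![1, 0; 0, -1] := by
  apply eq_of_matAct (H.faithful_LL hW)
  intro v
  obtain ⟨w, rfl⟩ := H.Phi.surjective v
  rw [← H.Phi_rho]
  funext i
  apply Subtype.ext
  rw [matAct_apply]
  fin_cases i
  · change ep r c h (r c w) = _
    rw [← Module.End.mul_apply, H.ep_c]
    simp [H.Phi_zero]
  · change E12 r c h g0 (r c w) = _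
    have : E12 r c h g0 * r c = - E12 r c h g0 := by
      simp only [E12, mul_assoc, H.em_c, mul_neg]
    rw [← Module.End.mul_apply, this]
    simp [H.Phi_one]

theorem rho_eq_of (hW : ∀ a : A, (∀ w : W, a • w = 0) → a = 0) {g g' : G} (hg : r g = r g') :
    H.rho hW g = H.rho hW g' := by
  apply eq_of_matAct (H.faithful_LL hW)
  intro v
  obtain ⟨w, rfl⟩ := H.Phi.surjective v
  rw [← H.Phi_rho, ← H.Phi_rho, hg]

end GHyp

/-- **GMA theorem** (`W = L²`), packaged. -/
theorem gma_main (H : GHyp r ε c t h g0 h0 ui ui')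
    (hW : ∀ a : A, (∀ w : W, a • w = 0) → a = 0) :
    ∃ (ρ : G →* Matrix (Fin 2) (Fin 2) A) (L : Submodule A W) (Φ : W ≃ₗ[A] (Fin 2 → L)),
      (∀ g w, Φ (r g w) = matAct (ρ g) (Φ w)) ∧ (∀ g, (ρ g).trace = t g) ∧
      (∀ g, (ρ g).det = ε g) ∧ ρ c = !![1, 0; 0, -1] ∧
      (∀ a : A, (∀ l : L, a • l = 0) → a = 0) ∧ (∀ g g', r g = r g' → ρ g = ρ g') ∧
      (∀ g, ρ g = rhoMat t c h g0 h0 ui g) :=
  ⟨H.rho hW, LL r c h, H.Phi, H.Phi_rho hW, H.trace_rho hW, H.det_rho hW, H.rho_c hW,
    H.faithful_LL hW, fun _ _ hg => H.rho_eq_of hW hg, fun _ => rfl⟩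

end Fermat.Agent.S43.Exact
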