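import Mathlib

/-!
# S43 / EXACT, part 1: exactness of a square-zero endomorphism lifts from the residue field

`Λ` a local ring (in the application `k[Δ_Q]`), `M` a finite flat (= free) `Λ`-module,
`N : M → M` a `Λ`-linear map with `N² = 0`.  If `ker N = im N` modulo `𝔪 M` then `ker N = im N`.
Pure Mathlib.
-/

set_option autoImplicit false

namespace Fermat.Agent.S43.Exact

open TensorProduct

universe u v

/-- over a field: a family spanning a complement of the kernel. -/
theorem exists_family_compl_ker {K : Type u} [Field K] {V : Type v} [AddCommGroup V] [Module K V]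
    (f : V →ₗ[K] V) :
    ∃ (ι : Type v) (b : ι → V), LinearIndependent K (f ∘ b) ∧
      ∀ z : V, ∃ a ∈ Submodule.span K (Set.range b), f (z - a) = 0 := by
  classical
  obtain ⟨C, hC⟩ := Submodule.exists_isCompl (LinearMap.ker f)
  let bC := Module.Basis.ofVectorSpace K C
  have hli0 : LinearIndependent K (fun i => (bC i : V)) :=
    bC.linearIndependent.map' C.subtype (Submodule.ker_subtype C)
  have hspanC : Submodule.span K (Set.range fun i => (bC i : V)) = C := by
    have := bC.span_eq
    have h2 := congrArg (Submodule.map C.subtype) this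
    rw [Submodule.map_span, Submodule.map_top, Submodule.range_subtype, ← Set.range_comp] at h2
    exact h2
  refine ⟨_, fun i => (bC i : V), ?_, ?_⟩
  · apply hli0.map
    rw [hspanC]
    exact hC.symm.disjoint
  · intro z
    have : z ∈ (LinearMap.ker f) ⊔ C := by rw [hC.sup_eq_top]; trivial
    obtain ⟨b, hb, a, ha, rfl⟩ := Submodule.mem_sup.mp this
    refine ⟨a, by rw [hspanC]; exact ha, ?_⟩
    simpa using hb

theorem exact_of_exact_mod {Λ : Type u} [CommRing Λ] [IsLocalRing Λ]
    {M : Type v} [AddCommGroup M] [Module Λ M] [Module.Flat Λ M] [Module.Finite Λ M]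
    (N : M →ₗ[Λ] M) (hN : ∀ x, N (N x) = 0)
    (hex : ∀ x, N x ∈ (IsLocalRing.maximalIdeal Λ) • (⊤ : Submodule Λ M) →
        ∃ y, x - N y ∈ (IsLocalRing.maximalIdeal Λ) • (⊤ : Submodule Λ M))
    (x : M) (hx : N x = 0) : ∃ y, x = N y := by
  classical
  have hπs : Function.Surjective (TensorProduct.mk Λ (IsLocalRing.ResidueField Λ) M 1) :=
    TensorProduct.mk_surjective Λ M _ Ideal.Quotient.mk_surjective
  have hπk : ∀ z, TensorProduct.mk Λ (IsLocalRing.ResidueField Λ) M 1 z = 0 ↔
      z ∈ (IsLocalRing.maximalIdeal Λ) • (⊤ : Submodule Λ M) := by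
    intro z
    rw [← LinearMap.ker_tensorProductMk, LinearMap.mem_ker]
    exact Iff.rfl
  have hNb : ∀ z, N.baseChange (IsLocalRing.ResidueField Λ)
      (TensorProduct.mk Λ (IsLocalRing.ResidueField Λ) M 1 z) =
      TensorProduct.mk Λ (IsLocalRing.ResidueField Λ) M 1 (N z) := by
    intro z
    simp
  obtain ⟨ι, b, hli1, hsp⟩ := exists_family_compl_ker (N.baseChange (IsLocalRing.ResidueField Λ))
  generalize hπ : TensorProduct.mk Λ (IsLocalRing.ResidueField Λ) M 1 = π at *
  generalize hNB : N.baseChange (IsLocalRing.ResidueField Λ) = Nb at *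
  have hπs' := hπs
  choose lift hlift using hπs'
  let w : ι → M := fun i => lift (b i)
  have hw : ∀ i, π (w i) = b i := fun i => hlift _
  have hli : LinearIndependent Λ (fun i => N (w i)) := by
    apply Module.IsLocalRing.linearIndependent_of_flat
    have e : (⇑(TensorProduct.mk Λ (IsLocalRing.ResidueField Λ) M 1) ∘ fun i => N (w i))
        = ⇑Nb ∘ b := by
      funext i
      simp only [Function.comp]
      rw [hπ, ← hw i, hNb]
    rw [e]
    exact hli1
  let S : Submodule Λ M := Submodule.span Λ (Set.range w)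
  have hker : ∀ z, Nb z = 0 → ∃ y, z = Nb y := by
    intro z hz
    obtain ⟨z, rfl⟩ := hπs z
    rw [hNb, hπk] at hz
    obtain ⟨y, hy⟩ := hex z hz
    refine ⟨π y, ?_⟩
    rw [hNb, ← sub_eq_zero, ← map_sub, hπk]
    exact hy
  have hCmem : ∀ z ∈ Submodule.span (IsLocalRing.ResidueField Λ) (Set.range b),
      ∃ s ∈ S, π s = z := by
    intro z hz
    induction hz using Submodule.span_induction with
    | mem z hz =>
      obtain ⟨i, rfl⟩ := hz
      exact ⟨w i, Submodule.subset_span ⟨i, rfl⟩, hw i⟩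
    | zero => exact ⟨0, S.zero_mem, map_zero _⟩
    | add a b _ _ ha hb =>
      obtain ⟨s, hs, rfl⟩ := ha
      obtain ⟨s', hs', rfl⟩ := hb
      exact ⟨s + s', S.add_mem hs hs', map_add _ _ _⟩
    | smul a z _ hz =>
      obtain ⟨s, hs, rfl⟩ := hz
      obtain ⟨a, rfl⟩ := Ideal.Quotient.mk_surjective a
      refine ⟨a • s, S.smul_mem _ hs, ?_⟩
      rw [map_smul]
      rfl
  have htop : S ⊔ S.map N = ⊤ := by
    rw [← IsLocalRing.map_tensorProduct_mk_eq_top, eq_top_iff, hπ]
    intro z _
    obtain ⟨a, ha, hza⟩ := hsp z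
    obtain ⟨y, hy⟩ := hker _ hza
    obtain ⟨a', ha', hya⟩ := hsp y
    obtain ⟨s, hs, rfl⟩ := hCmem a ha
    obtain ⟨s', hs', rfl⟩ := hCmem a' ha'
    refine ⟨s + N s', Submodule.add_mem_sup hs (Submodule.mem_map_of_mem hs'), ?_⟩
    rw [map_sub, sub_eq_zero] at hya
    rw [map_add, ← hNb, ← hya, ← hy]
    abel
  have hxm : x ∈ S ⊔ S.map N := by rw [htop]; trivial
  obtain ⟨s, hs, s2, hs2, rfl⟩ := Submodule.mem_sup.mp hxm
  obtain ⟨s', -, rfl⟩ := hs2
  rw [map_add, hN, add_zero] at hx
  obtain ⟨f, rfl⟩ := (Finsupp.mem_span_range_iff_exists_finsupp).mp hs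
  have h0 : f = 0 := by
    rw [linearIndependent_iff] at hli
    apply hli
    rw [Finsupp.linearCombination_apply]
    rw [Finsupp.sum, map_sum] at hx
    simpa [Finsupp.sum] using hx
  refine ⟨s', ?_⟩
  rw [h0]
  simp

end Fermat.Agent.S43.Exact
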